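import Fermat.Agent.Local.Matching

/-!
# Modular of a cube-free level implies modular of the conductor level

`modular_of_eventually`, `modular_conductorLevel`: a newform of minimal level with the traces of a
semistable model has that model's conductor as level, by `Local.newform_level`.
-/

set_option autoImplicit false

noncomputable section

open CuspForm WeierstrassCurve ModularFormClass CongruenceSubgroup

namespace FLTAgent.Main

theorem not_cube_dvd_lcm {a b : ℕ} (ha : a ≠ 0) (hb : b ≠ 0)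
    (ha3 : ∀ q : ℕ, q.Prime → ¬ q ^ 3 ∣ a) (hb3 : ∀ q : ℕ, q.Prime → ¬ q ^ 3 ∣ b) {q : ℕ}
    (hq : q.Prime) : ¬ q ^ 3 ∣ Nat.lcm a b := by
  intro h
  have h' := (hq.pow_dvd_iff_le_factorization (Nat.lcm_ne_zero ha hb)).1 h
  rw [Nat.factorization_lcm ha hb, Finsupp.sup_apply, le_sup_iff] at h'
  rcases h' with h' | h'
  · exact ha3 q hq ((hq.pow_dvd_iff_le_factorization ha).2 h')
  · exact hb3 q hq ((hq.pow_dvd_iff_le_factorization hb).2 h')

theorem not_cube_dvd_of_squarefree {a : ℕ} (ha : Squarefree a) {q : ℕ} (hq : q.Prime) :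
    ¬ q ^ 3 ∣ a :=
  fun h => Nat.squarefree_iff_prime_squarefree.mp ha q hq
    (((pow_two q).symm ▸ pow_dvd_pow q (by norm_num : 2 ≤ 3)).trans h)

/-- A semistable model whose traces agree at almost all primes with an eigenform of cube-free
level is modular of its conductor level. -/
theorem modular_of_eventually {W : WeierstrassCurve ℤ} (hss : W.IsSemistableModel) (hΔ : W.Δ ≠ 0)
    {N : ℕ} (hN3 : ∀ q : ℕ, q.Prime → ¬ q ^ 3 ∣ N) {f : CuspForm (Gamma0 N) 2}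
    (hf : f.IsNormalizedEigenform) (S : Finset ℕ)
    (hfc : ∀ ℓ : ℕ, ℓ.Prime → ℓ ∉ S → qCoeff f ℓ = (W.apOfModel ℓ : ℂ)) :
    W.IsModularModelOfLevel W.conductorLevel := by
  classical
  have hN0 : N ≠ 0 := fun h => hN3 2 Nat.prime_two (h ▸ dvd_zero _)
  set m := ∏ q ∈ S.filter Nat.Prime, q with hm
  have hmsq : Squarefree m := by
    refine Finset.squarefree_prod_of_pairwise_isCoprime (fun i hi j hj hij => ?_) fun i hi => ?_
    · exact Nat.coprime_iff_isRelPrime.1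
        ((Nat.coprime_primes (Finset.mem_filter.1 hi).2 (Finset.mem_filter.1 hj).2).2 hij)
    · exact (Finset.mem_filter.1 hi).2.squarefree
  set L := Nat.lcm N (Nat.lcm W.conductorLevel m) with hL
  have hcm : Nat.lcm W.conductorLevel m ≠ 0 :=
    Nat.lcm_ne_zero W.conductorLevel_pos.ne' hmsq.ne_zero
  have hL0 : L ≠ 0 := Nat.lcm_ne_zero hN0 hcm
  have hbad : ∀ ℓ : ℕ, ℓ.Prime → (ℓ : ℤ) ∣ W.Δ → ℓ ∣ L := fun ℓ hℓ h =>
    ((W.prime_dvd_conductorLevel_iff hΔ hℓ).2 h).trans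
      ((Nat.dvd_lcm_left _ _).trans (Nat.dvd_lcm_right _ _))
  have hSL : ∀ ℓ : ℕ, ℓ.Prime → ℓ ∈ S → ℓ ∣ L := fun ℓ hℓ h =>
    (Finset.dvd_prod_of_mem _ (Finset.mem_filter.2 ⟨h, hℓ⟩)).trans
      ((Nat.dvd_lcm_right _ _).trans (Nat.dvd_lcm_right _ _))
  have hL3 : ∀ q : ℕ, q.Prime → ¬ q ^ 3 ∣ L := fun q hq =>
    not_cube_dvd_lcm hN0 hcm hN3 (fun r hr => not_cube_dvd_lcm W.conductorLevel_pos.ne' hmsq.ne_zero
      (fun _ => not_cube_dvd_of_squarefree W.squarefree_conductorLevel)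
      (fun _ => not_cube_dvd_of_squarefree hmsq) hr) hq
  let P : ℕ → Prop := fun M => M ∣ L ∧ ∃ g : CuspForm (Gamma0 M) 2, g.IsNormalizedEigenform ∧
    ∀ ℓ : ℕ, ℓ.Prime → ¬ ℓ ∣ L → qCoeff g ℓ = (W.apOfModel ℓ : ℂ)
  have hP : ∃ M, P M := ⟨N, Nat.dvd_lcm_left _ _, f, hf, fun ℓ hℓ hℓL =>
    hfc ℓ hℓ fun h => hℓL (hSL ℓ hℓ h)⟩
  obtain ⟨M, hMdef⟩ : ∃ M, M = Nat.find hP := ⟨_, rfl⟩
  obtain ⟨hML, g, hg, hgc⟩ : P M := hMdef ▸ Nat.find_spec hP
  have : NeZero M := ⟨fun h => hL0 (Nat.eq_zero_of_zero_dvd (h ▸ hML))⟩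
  have hnew : g.IsNewform := by
    refine ⟨hg, fun M' hM' hne ⟨g', hg', hgc'⟩ => ?_⟩
    refine Nat.find_min hP (hMdef ▸ lt_of_le_of_ne (Nat.le_of_dvd (NeZero.pos M) hM') hne)
      ⟨hM'.trans hML, g', hg', fun ℓ hℓ hℓL => ?_⟩
    rw [hgc' ℓ hℓ fun h => hℓL (h.trans hML)]
    exact hgc ℓ hℓ hℓL
  have key := fun (q : ℕ) (hq : q.Prime) => Local.newform_level hss hΔ hL0 hbad hL3 hML hnew hgc hq
  have hM : M = W.conductorLevel := by
    refine (Nat.Squarefree.ext_iff ?_ W.squarefree_conductorLevel).mpr fun q hq => ?_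
    · exact Nat.squarefree_iff_prime_squarefree.mpr fun q hq h => (key q hq).1 (by rwa [sq])
    · rw [(key q hq).2.1, W.prime_dvd_conductorLevel_iff hΔ hq]
  rw [← hM]
  exact ⟨g, hg, fun q hq _ hqM => (key q hq).2.2 hqM⟩

/-- A semistable model modular of a cube-free level is modular of its conductor level; the bad
primes need not divide the given level. -/
theorem modular_conductorLevel {W : WeierstrassCurve ℤ} (hss : W.IsSemistableModel) (hΔ : W.Δ ≠ 0)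
    {N : ℕ} (hN3 : ∀ q : ℕ, q.Prime → ¬ q ^ 3 ∣ N) (hN : W.IsModularModelOfLevel N) :
    W.IsModularModelOfLevel W.conductorLevel := by
  classical
  have hN0 : N ≠ 0 := fun h => hN3 2 Nat.prime_two (h ▸ dvd_zero _)
  obtain ⟨f, hf, hfc⟩ := hN
  refine modular_of_eventually hss hΔ hN3 hf (N.primeFactors ∪ W.Δ.natAbs.primeFactors) ?_
  intro ℓ hℓ hS
  rw [Finset.mem_union, not_or] at hS
  refine hfc ℓ hℓ (fun h => hS.2 ?_) fun h => hS.1 ?_
  · exact Nat.mem_primeFactors.2 ⟨hℓ, Int.natCast_dvd.1 h, Int.natAbs_ne_zero.2 hΔ⟩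
  · exact Nat.mem_primeFactors.2 ⟨hℓ, h, hN0⟩

end FLTAgent.Main
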