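import Fermat.Agent.Switch.Choose

/-!
# The 3-5 switch keeps multiplicative reduction at `2`

`exists_switchFive`: the switched curve of `Switch.exists_switchCurve` has the reduction of the
given one modulo every prime up to `30`.
-/

set_option autoImplicit false

namespace FLTAgent.Main

open WeierstrassCurve

/-- For a semistable curve with bad reduction at `2` there is a semistable curve with bad reduction
at `2`, irreducible mod `3` representation, bad at `5` only if the first is, and the same traces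
mod `5`. -/
theorem exists_switchFive (W : WeierstrassCurve ℤ) (hΔ : W.Δ ≠ 0) (hW : W.IsSemistableModel)
    (h2 : (2 : ℤ) ∣ W.Δ) :
    ∃ W' : WeierstrassCurve ℤ, W'.Δ ≠ 0 ∧ W'.IsSemistableModel ∧ (2 : ℤ) ∣ W'.Δ ∧
      W'.ModRepIsIrreducible 3 ∧ ((5 : ℤ) ∣ W'.Δ → (5 : ℤ) ∣ W.Δ) ∧
      ∀ ℓ : ℕ, ℓ.Prime → W.IsGoodPrimeFor ℓ → W'.IsGoodPrimeFor ℓ →
        (5 : ℤ) ∣ W'.apOfModel ℓ - W.apOfModel ℓ := by
  obtain ⟨a, m, hΔ', h3⟩ := Switch.exists_switchCurve W hΔ
  have key : ∀ q : ℕ, q.Prime → q ≤ 30 →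
      ((q : ℤ) ∣ (Switch.switchCurve W a m).Δ ↔ (q : ℤ) ∣ W.Δ) := fun q hq hq30 => by
    have e := congrArg WeierstrassCurve.Δ (Switch.reductionMod_switchCurve W a m
      (Switch.le_thirty_dvd_switchM W hq hq30))
    simp only [WeierstrassCurve.reductionMod, WeierstrassCurve.map_Δ, eq_intCast] at e
    rw [← ZMod.intCast_zmod_eq_zero_iff_dvd _ q, e, ZMod.intCast_zmod_eq_zero_iff_dvd]
  refine ⟨Switch.switchCurve W a m, hΔ', Switch.switchCurve_isSemistable W a m hW, ?_, h3, ?_,
    fun ℓ hℓ hg hg' => Switch.switchCurve_congr W a m hℓ hg hg'⟩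
  · exact_mod_cast (key 2 Nat.prime_two (by norm_num)).2 (by exact_mod_cast h2)
  · intro h5
    exact_mod_cast (key 5 Nat.prime_five (by norm_num)).1 (by exact_mod_cast h5)

end FLTAgent.Main
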