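import Fermat.Prelude.Def_FLTPrelim_ModularRep
import Fermat.Prelude.Def_FreyPackage_IsConductorLevel
import Fermat.Prelude.Def_WeierstrassCurve_ConductorLevel
import Fermat.Agent.EllP.Frey

/-!
# Modular models and residual modularity

Congruences of traces turn a modular model into residual modularity (`residuallyModular_of_congr`);
applied to the integral Frey model this gives the modularity of the mod `p` representation at the
conductor level (`frey_isConductorLevel`, `frey_modularRep`).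
-/

set_option autoImplicit false

namespace FLTAgent.Main

open WeierstrassCurve ModularFormClass

/-- A congruence of traces transfers modularity of a model to residual modularity. -/
theorem residuallyModular_of_congr {p : ℕ} (hp : p.Prime) {W W' : WeierstrassCurve ℤ} {M : ℕ}
    (hmod : W'.IsModularModelOfLevel M)
    (hbad : ∀ ℓ : ℕ, ℓ.Prime → (ℓ : ℤ) ∣ W'.Δ → ℓ ∣ M)
    (hcongr : ∀ ℓ : ℕ, ℓ.Prime → W.IsGoodPrimeFor ℓ → W'.IsGoodPrimeFor ℓ → ℓ ≠ p →
      (p : ℤ) ∣ W'.apOfModel ℓ - W.apOfModel ℓ) :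
    W.IsResiduallyModularOfLevel p M := by
  obtain ⟨f, hf, hcoef⟩ := hmod
  obtain ⟨𝔪, h𝔪, hp𝔪⟩ := FLTPrelim.exists_maximalIdeal_natCast_prime_mem hp
  refine ⟨f, 𝔪, hf, h𝔪, hp𝔪, fun ℓ hℓ hg hℓM hℓp => ?_⟩
  have hg' : W'.IsGoodPrimeFor ℓ := fun h => hℓM (hbad ℓ hℓ h)
  refine ⟨((W'.apOfModel ℓ : ℤ) : integralClosure ℤ ℂ), ?_, ?_⟩
  · rw [hcoef ℓ hℓ hg' hℓM]; exact SubringClass.coe_intCast _ _
  · obtain ⟨c, hc⟩ := hcongr ℓ hℓ hg hg' hℓp
    rw [← Int.cast_sub, hc, Int.cast_mul, Int.cast_natCast]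
    exact Ideal.mul_mem_right _ _ hp𝔪

/-- A modular model is residually modular at every prime. -/
theorem residuallyModular_self {p : ℕ} (hp : p.Prime) {W : WeierstrassCurve ℤ} {M : ℕ}
    (hmod : W.IsModularModelOfLevel M) (hbad : ∀ ℓ : ℕ, ℓ.Prime → (ℓ : ℤ) ∣ W.Δ → ℓ ∣ M) :
    W.IsResiduallyModularOfLevel p M :=
  residuallyModular_of_congr hp hmod hbad fun ℓ _ _ _ _ => by simp

/-- The integral Frey model has bad reduction at `2`. -/
theorem frey_two_dvd_Δ (P : FreyPackage) : (2 : ℤ) ∣ P.freyCurveInt.Δ := by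
  have hb : (32 : ℤ) ∣ P.b ^ P.p := EllP.frey_thirtytwo_dvd P
  obtain ⟨k, hk⟩ := hb
  have h := EllP.frey_Δ_mul P
  rw [hk] at h
  refine ⟨2 * (P.a ^ P.p * k * P.c ^ P.p) ^ 2, ?_⟩
  linarith [show (P.a ^ P.p * (32 * k) * P.c ^ P.p) ^ 2 =
    256 * (2 * (2 * (P.a ^ P.p * k * P.c ^ P.p) ^ 2)) by ring]

/-- The bad primes of the integral Frey model divide `abc`. -/
theorem frey_dvd_abc (P : FreyPackage) {q : ℕ} (hq : q.Prime)
    (h : (q : ℤ) ∣ P.freyCurveInt.Δ) : (q : ℤ) ∣ P.a * P.b * P.c := by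
  have hqp : Prime (q : ℤ) := Nat.prime_iff_prime_int.1 hq
  have h' : (q : ℤ) ∣ ((P.a * P.b * P.c) ^ P.p) ^ 2 := by
    rw [show ((P.a * P.b * P.c) ^ P.p) ^ 2 = (P.a ^ P.p * P.b ^ P.p * P.c ^ P.p) ^ 2 by ring,
      ← EllP.frey_Δ_mul P]
    exact h.mul_left _
  exact hqp.dvd_of_dvd_pow (hqp.dvd_of_dvd_pow h')

/-- The conductor level of the integral Frey model is a conductor level of the package. -/
theorem frey_isConductorLevel (P : FreyPackage) :
    P.IsConductorLevel P.freyCurveInt.conductorLevel :=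
  ⟨conductorLevel_pos _, squarefree_conductorLevel _, fun _ hq h => frey_dvd_abc P hq
    ((prime_dvd_conductorLevel_iff _ (EllP.frey_Δ_ne_zero P) hq).1 h)⟩

/-- Modularity of the integral Frey model gives modularity of the mod `p` representation. -/
theorem frey_modularRep (P : FreyPackage)
    (hmod : P.freyCurveInt.IsModularModelOfLevel P.freyCurveInt.conductorLevel) :
    P.ModularRepOfLevel P.freyCurveInt.conductorLevel := by
  obtain ⟨f, 𝔪, hf, h𝔪, hp𝔪, hcoef⟩ := residuallyModular_self P.pp hmod fun ℓ hℓ h =>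
    (prime_dvd_conductorLevel_iff _ (EllP.frey_Δ_ne_zero P) hℓ).2 h
  exact ⟨f, P.freyCurveInt, 𝔪, hf, ⟨1, by rw [one_smul, EllP.frey_map_eq]⟩, h𝔪, hp𝔪, hcoef⟩

end FLTAgent.Main
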