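import Fermat.Agent.S51
import Fermat.Agent.Main.Switch35
import Fermat.Agent.Main.Transfer
import Fermat.Agent.Main.Level
import Fermat.Agent.Mod2.Switch3
import Fermat.Agent.Main.Inputs.TwoAdic
import Fermat.Agent.Main.Inputs.Lifting

/-!
# Semistable curves with bad reduction at `2` are modular

The mod `3` representation becomes modular through the switch at `3` and the 2-adic theorem;
lifting at `3`, and at `5` after the 3-5 switch, finishes.
-/

set_option autoImplicit false

namespace FLTAgent.Main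

open WeierstrassCurve

variable {W : WeierstrassCurve ℤ}

theorem bad_dvd_conductorLevel (hΔ : W.Δ ≠ 0) :
    ∀ ℓ : ℕ, ℓ.Prime → (ℓ : ℤ) ∣ W.Δ → ℓ ∣ W.conductorLevel :=
  fun _ hℓ h => (W.prime_dvd_conductorLevel_iff hΔ hℓ).2 h

/-- Residual modularity at `3`. -/
theorem residuallyModular_three (hΔ : W.Δ ≠ 0) (hW : W.IsSemistableModel) (h2 : (2 : ℤ) ∣ W.Δ) :
    ∃ M : ℕ, Squarefree M ∧ (W.IsGoodPrimeFor 3 → ¬ 3 ∣ M) ∧
      W.IsResiduallyModularOfLevel 3 M := by
  obtain ⟨E, hneg, hE, hE2, hodd, hirr, h3, hcongr⟩ := Mod2.exists_switch23 W hΔ hW h2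
  obtain ⟨N, hN3, hN⟩ := Inputs.modular_of_twoAdic E hE hneg hE2 hodd hirr
  exact ⟨E.conductorLevel, E.squarefree_conductorLevel,
    fun hg h => hg (h3 ((E.prime_dvd_conductorLevel_iff hneg.ne Nat.prime_three).1 h)),
    residuallyModular_of_congr Nat.prime_three (modular_conductorLevel hE hneg.ne hN3 hN)
      (bad_dvd_conductorLevel hneg.ne) (by exact_mod_cast hcongr)⟩

/-- Modularity when the mod `3` representation is irreducible. -/
theorem modular_of_three (hΔ : W.Δ ≠ 0) (hW : W.IsSemistableModel) (h2 : (2 : ℤ) ∣ W.Δ)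
    (h3 : W.ModRepIsIrreducible 3) : W.IsModularModelOfLevel W.conductorLevel := by
  obtain ⟨M, hM, hM3, hres⟩ := residuallyModular_three hΔ hW h2
  obtain ⟨N, hN3, hN⟩ :=
    Inputs.modular_of_residual 3 (Or.inl rfl) W hΔ hW h3 M hM hM3 hres
  exact modular_conductorLevel hW hΔ hN3 hN

/-- Semistable curves with bad reduction at `2` are modular of their conductor level. -/
theorem modular_of_two_dvd (hΔ : W.Δ ≠ 0) (hW : W.IsSemistableModel) (h2 : (2 : ℤ) ∣ W.Δ) :
    W.IsModularModelOfLevel W.conductorLevel := by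
  rcases Fermat.Agent.S51.result W hΔ hW with h3 | h5
  · exact modular_of_three hΔ hW h2 h3
  obtain ⟨W', hΔ', hW', h2', h3', h55, hcongr⟩ := exists_switchFive W hΔ hW h2
  obtain ⟨N, hN3, hN⟩ := Inputs.modular_of_residual 5 (Or.inr rfl) W hΔ hW h5 W'.conductorLevel
    W'.squarefree_conductorLevel
    (fun hg h => hg (h55 ((W'.prime_dvd_conductorLevel_iff hΔ' Nat.prime_five).1 h)))
    (residuallyModular_of_congr Nat.prime_five (modular_of_three hΔ' hW' h2' h3')
      (bad_dvd_conductorLevel hΔ') fun ℓ hℓ hg hg' _ => by exact_mod_cast hcongr ℓ hℓ hg hg')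
  exact modular_conductorLevel hW hΔ hN3 hN

end FLTAgent.Main
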