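import Fermat.Agent.S05
import Fermat.Agent.S07
import Fermat.Agent.S08
import Fermat.Agent.Main.Modular
import Fermat.Agent.Main.Inputs.Frey

/-!
# No Frey package

The Frey curve is modular (`frey_isModular`), so its mod `p` representation is modular of its
conductor level; as it is irreducible (S09), lowering at `p` (S44) and at the odd primes (S43,
with S05) reaches a level dividing `2` (`exists_level_dvd_two`), where there are no nonzero cusp
forms (S07, S08): `no_package`.
-/

set_option autoImplicit false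

open WeierstrassCurve WeierstrassCurve.Affine WeierstrassCurve.Affine.Point

namespace FLTAgent.Main

/-- The Frey curve is modular. -/
theorem frey_isModular (P : FreyPackage) : P.freyCurve.IsModular :=
  ⟨P.freyCurveInt, ⟨1, by rw [one_smul, EllP.frey_map_eq]⟩,
    P.freyCurveInt.conductorLevel, P.freyCurveInt.conductorLevel_pos,
    modular_of_two_dvd (EllP.frey_Δ_ne_zero P) (EllP.frey_isSemistableModel P) (frey_two_dvd_Δ P)⟩

/-- The mod `p` representation is modular of some conductor level. -/
theorem frey_modularRep_conductorLevel (P : FreyPackage) :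
    ∃ N : ℕ, P.IsConductorLevel N ∧ P.ModularRepOfLevel N :=
  ⟨_, frey_isConductorLevel P, frey_modularRep P
    (modular_of_two_dvd (EllP.frey_Δ_ne_zero P) (EllP.frey_isSemistableModel P)
      (frey_two_dvd_Δ P))⟩

/-- Iterated lowering: some divisor of `2` is a modular level. -/
theorem exists_level_dvd_two (P : FreyPackage) {N : ℕ} (hcond : P.IsConductorLevel N)
    (hirr : GaloisRepIsIrreducible (K := AlgebraicClosure ℚ) ℚ P.freyCurve P.p)
    (hmod : P.ModularRepOfLevel N) : ∃ M : ℕ, M ∣ 2 ∧ P.ModularRepOfLevel M := by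
  induction N using Nat.strong_induction_on with
  | _ N IH =>
    by_cases h2 : N ∣ 2
    · exact ⟨N, h2, hmod⟩
    obtain ⟨q, hq, hqN, hq2⟩ : ∃ q, q.Prime ∧ q ∣ N ∧ q ≠ 2 := by
      by_contra hc
      apply h2
      rw [← Nat.prod_primeFactors_of_squarefree hcond.squarefree]
      calc ∏ q ∈ N.primeFactors, q ∣ ∏ q ∈ ({2} : Finset ℕ), q :=
            Finset.prod_dvd_prod_of_subset _ _ _ fun q hq => Finset.mem_singleton.2 (by
              by_contra h
              exact hc ⟨q, Nat.prime_of_mem_primeFactors hq, Nat.dvd_of_mem_primeFactors hq, h⟩)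
        _ = 2 := Finset.prod_singleton _ _
    obtain ⟨M, hMN, hne, hM⟩ : ∃ M, M ∣ N ∧ M ≠ N ∧ P.ModularRepOfLevel M := by
      rcases eq_or_ne q P.p with rfl | hqp
      · obtain ⟨M, hMN, h, hM⟩ := Inputs.levelLoweringAtP P hcond hqN hirr hmod
        exact ⟨M, hMN, fun e => h (e ▸ hqN), hM⟩
      · obtain ⟨M, hMN, h, hM⟩ := Inputs.levelLoweringOdd P hcond hq hq2 hqp hqN hirr hmod
          (Fermat.Agent.S05.result P hq hq2 hqp)
        exact ⟨M, hMN, fun e => h (e ▸ hqN), hM⟩
    exact IH M (lt_of_le_of_ne (Nat.le_of_dvd hcond.pos hMN) hne)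
      (hcond.of_dvd hMN (Nat.pos_of_dvd_of_pos hMN hcond.pos)) hM

/-- A nonzero cusp form of level `2`. -/
theorem exists_cuspForm_two (P : FreyPackage)
    (hirr : GaloisRepIsIrreducible (K := AlgebraicClosure ℚ) ℚ P.freyCurve P.p) :
    ∃ f : CuspForm (CongruenceSubgroup.Gamma0 2) 2, f ≠ 0 := by
  obtain ⟨N, hcond, hmod⟩ := frey_modularRep_conductorLevel P
  obtain ⟨M, hM, f, -, -, hf, -⟩ := exists_level_dvd_two P hcond hirr hmod
  rcases (Nat.dvd_prime Nat.prime_two).1 hM with rfl | rfl
  · exact absurd (Fermat.Agent.S08.result f) hf.ne_zero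
  · exact ⟨f, hf.ne_zero⟩

/-- **There is no Frey package.** -/
theorem no_package (P : FreyPackage) : False :=
  let ⟨f, hf⟩ := exists_cuspForm_two P (Inputs.freyIrreducible P)
  hf (Fermat.Agent.S07.result f)

end FLTAgent.Main
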