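import Fermat.Agent.Main.Root

/-!
# Fermat's Last Theorem in Mathlib's form

`fermatLastTheorem_holds` is `flt` with the positivity hypotheses written as `≠ 0`; `flt_int` and
`flt_rat` are its forms over the integers and the rationals.
-/

set_option autoImplicit false

namespace FLTAgent.Main

/-- Fermat's Last Theorem, as stated by Mathlib's `FermatLastTheorem`. -/
theorem fermatLastTheorem_holds : FermatLastTheorem :=
  fun n hn a b c ha hb hc => flt n hn a b c (Nat.pos_of_ne_zero ha) (Nat.pos_of_ne_zero hb)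
    (Nat.pos_of_ne_zero hc)

/-- Fermat's Last Theorem over the integers: no solution in nonzero integers for `n ≥ 3`. -/
theorem flt_int (n : ℕ) (hn : 3 ≤ n) {a b c : ℤ} (ha : a ≠ 0) (hb : b ≠ 0) (hc : c ≠ 0) :
    a ^ n + b ^ n ≠ c ^ n :=
  fermatLastTheoremFor_iff_int.mp (fermatLastTheorem_holds n hn) a b c ha hb hc

/-- Fermat's Last Theorem over the rationals: no solution in nonzero rationals for `n ≥ 3`. -/
theorem flt_rat (n : ℕ) (hn : 3 ≤ n) {a b c : ℚ} (ha : a ≠ 0) (hb : b ≠ 0) (hc : c ≠ 0) :
    a ^ n + b ^ n ≠ c ^ n :=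
  fermatLastTheoremFor_iff_rat.mp (fermatLastTheorem_holds n hn) a b c ha hb hc

end FLTAgent.Main
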