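import Fermat.Agent.S02
import Fermat.Agent.Main.Endgame

/-!
# Fermat's Last Theorem from the nonexistence of Frey packages

`flt` is the statement of S01: prime exponents `p ≥ 5` give a Frey package (S02) and contradict
`no_package`; exponents `3` and `4` are Mathlib's.
-/

set_option autoImplicit false

namespace FLTAgent.Main

/-- The prime exponents `p ≥ 5`. -/
theorem flt_prime_ge_five {p : ℕ} (pp : p.Prime) (hp5 : 5 ≤ p) : FermatLastTheoremFor p :=
  (fermatLastTheoremFor_iff_int).2 fun a b c ha hb hc h =>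
    let ⟨P⟩ := Fermat.Agent.S02.result a b c ha hb hc p pp hp5 h
    no_package P

/-- **Fermat's Last Theorem.** -/
theorem flt (n : ℕ) (hn : 3 ≤ n) (a b c : ℕ) (ha : 0 < a) (hb : 0 < b) (hc : 0 < c) :
    a ^ n + b ^ n ≠ c ^ n := by
  refine FermatLastTheorem.of_odd_primes (fun p pp hodd => ?_) n hn a b c ha.ne' hb.ne' hc.ne'
  by_cases h3 : p = 3
  · subst h3; exact fermatLastTheoremThree
  refine flt_prime_ge_five pp ?_
  have := pp.two_le
  obtain ⟨k, rfl⟩ := hodd
  omega

end FLTAgent.Main
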